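import Fermat.Agent.S27x.Belyi.Poly
import Fermat.Agent.S27x.Glue.SeparatingElement
import Fermat.Agent.S27x.G2b.Defs
import Fermat.Agent.S24.FFDataAll
import Fermat.Agent.Lib.RiemannRoch.XSetting
import Fermat.Agent.Gateway.GoodRed.PolesOfRel

/-!
# Belyi's theorem: the function field part (P-S27, B2, helper66)

`K` algebraically closed of characteristic zero, `F / K` a function field of one variable.

* `UnramOutside x S`: every zero of `x - c`, `c ∉ S`, is simple (`F / K(x)` is unramified over the
  finite values outside `S`);
* `exists_finset_unramOutside`: for `x` transcendental with `F / K(x)` finite, `x` is unramified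
  outside a finite set (the divisor of `dx` has finite support);
* `UnramOutside.map_poly`: if `x` is unramified outside `S` and the polynomial `p` maps `S` and the
  critical points of `p` into `T`, then `p(x)` is unramified outside `T`;
* `exists_belyi_zero_one`, `exists_belyi`: if moreover `K` is algebraic over `ℚ`, there is a
  transcendental `β` with `F / K(β)` finite, unramified outside `{0, 1}` (resp. `{0, 16}`, in the
  form `G2b.IsBelyiUnram K β`).
-/

set_option autoImplicit false

open AlgebraicCurve Polynomial IntermediateField KaehlerDifferential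

namespace Fermat.Agent.S27x.Belyi

open Fermat.Agent.S24 Fermat.Agent.Gateway.GoodRed.PolesOfRel

variable {K F : Type*} [Field K] [Field F] [Algebra K F]

/-- Every zero of `x - c`, `c ∉ S`, is simple. -/
def UnramOutside (x : F) (S : Set K) : Prop :=
  ∀ (v : Place K F) (c : K), c ∉ S → 0 < v.ord (x - algebraMap K F c) →
    v.ord (x - algebraMap K F c) = 1

theorem UnramOutside.mono {x : F} {S S' : Set K} (h : UnramOutside x S) (hS : S ⊆ S') :
    UnramOutside x S' :=
  fun v c hc hv => h v c (fun hc' => hc (hS hc')) hv

/-- A polynomial not vanishing at `a` is a unit at every zero of `x - a`. -/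
theorem ord_aeval_eq_zero_of_eval_ne (v : Place K F) {x : F} {a : K}
    (hxa : 0 < v.ord (x - algebraMap K F a)) (r : K[X]) (hr : eval a r ≠ 0) :
    aeval x r ≠ 0 ∧ v.ord (aeval x r) = 0 := by
  have h1 : (r.comp (X + C a)).coeff 0 ≠ 0 := by
    rw [coeff_zero_eq_eval_zero, eval_comp, eval_add, eval_X, eval_C, zero_add]
    exact hr
  have h2 : aeval (x - algebraMap K F a) (r.comp (X + C a)) = aeval x r := by
    rw [aeval_comp, map_add, aeval_X, aeval_C, sub_add_cancel]
  have := aeval_unit_of_ord_pos v hxa (r.comp (X + C a)) h1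
  rwa [h2] at this

section Comp

variable {x : F}

/-- If `x` is unramified outside `S` and `p` maps `S` and the critical points of `p` into `T`,
then `p(x)` is unramified outside `T`. -/
theorem UnramOutside.map_poly (h : RH.FFData K x) {S T : Set K} (hS : UnramOutside x S)
    {p : K[X]} (hp : ∀ c : K, (c ∈ S ∨ eval c (derivative p) = 0) → eval c p ∈ T) :
    UnramOutside (aeval x p) T := by
  intro v c hc hv
  set q : K[X] := p - C c with hq
  have hqx : aeval x q = aeval x p - algebraMap K F c := by
    rw [hq, map_sub, aeval_C]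
  rw [← hqx] at hv ⊢
  have hq0 : q ≠ 0 := by
    intro h0
    rw [h0, map_zero, v.ord_zero] at hv
    exact lt_irrefl _ hv
  -- `x` is regular at `v`
  have hx0 : 0 ≤ v.ord x := by
    by_contra hneg
    obtain ⟨-, hord⟩ := ord_aeval_of_ord_neg v (not_le.1 hneg) q hq0
    rw [hord] at hv
    have : (q.natDegree : ℤ) * v.ord x ≤ 0 :=
      mul_nonpos_of_nonneg_of_nonpos (Int.natCast_nonneg _) (not_le.1 hneg).le
    omega
  obtain ⟨a, ha⟩ := h.residue v hx0
  -- the value of `p` at `a` is `c`
  have hqa : eval a q = 0 := by
    by_contra hne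
    obtain ⟨-, hord⟩ := ord_aeval_eq_zero_of_eval_ne v ha q hne
    rw [hord] at hv
    exact lt_irrefl _ hv
  have hpa : eval a p = c := by
    rw [hq, eval_sub, eval_C, sub_eq_zero] at hqa
    exact hqa
  have haS : a ∉ S := fun haS => hc (hpa ▸ hp a (Or.inl haS))
  have hder : eval a (derivative p) ≠ 0 := fun h0 => hc (hpa ▸ hp a (Or.inr h0))
  have hxa : v.ord (x - algebraMap K F a) = 1 := hS v a haS ha
  -- factor `q = (X - a) r`
  have hfac : (X - C a) * (q /ₘ (X - C a)) = q := mul_divByMonic_eq_iff_isRoot.2 hqa
  set r : K[X] := q /ₘ (X - C a) with hr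
  have hra : eval a r = eval a (derivative p) := by
    have h1 : derivative q = derivative p := by
      rw [hq, derivative_sub, derivative_C, sub_zero]
    have h2 : derivative q = r + (X - C a) * derivative r := by
      conv_lhs => rw [← hfac]
      rw [derivative_mul, derivative_sub, derivative_X, derivative_C, sub_zero, one_mul]
    rw [← h1, h2, eval_add, eval_mul, eval_sub, eval_X, eval_C, sub_self, zero_mul, add_zero]
  obtain ⟨hrne, hrord⟩ := ord_aeval_eq_zero_of_eval_ne v ha r (hra ▸ hder)
  have hxa0 : x - algebraMap K F a ≠ 0 := by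
    intro h0
    rw [h0, v.ord_zero] at ha
    exact lt_irrefl _ ha
  have hqfac : aeval x q = (x - algebraMap K F a) * aeval x r := by
    conv_lhs => rw [← hfac]
    rw [map_mul, map_sub, aeval_X, aeval_C]
  rw [hqfac, v.ord_mul hxa0 hrne, hxa, hrord, add_zero]

end Comp

section Finite

variable [IsAlgClosed K] [CharZero K] {x : F}

/-- A separating element is unramified outside a finite set: the divisor of `dx` has finite
support. -/
theorem exists_finset_unramOutside (hx : Transcendental K x) [FiniteDimensional K⟮x⟯ F] :
    ∃ S : Finset K, UnramOutside x (S : Set K) := by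
  classical
  have h : RH.FFData K x := FFDataAll.ffData hx
  obtain ⟨W, hW⟩ := Fermat.Agent.Lib.RiemannRoch.XSetting.exists_divisor_dx hx
  let val : Place K F → K := fun v =>
    if hv : ∃ a : K, 0 < v.ord (x - algebraMap K F a) then hv.choose else 0
  refine ⟨W.support.image val, ?_⟩
  intro v c hc hv
  have hval : val v = c := by
    have hex : ∃ a : K, 0 < v.ord (x - algebraMap K F a) := ⟨c, hv⟩
    have h1 : val v = hex.choose := dif_pos hex
    rw [h1]
    exact h.const_unique v hex.choose_spec hv
  have hvW : v ∉ W.support := by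
    intro hmem
    apply hc
    rw [Finset.mem_coe, Finset.mem_image]
    exact ⟨v, hmem, hval⟩
  have hW0 : W v = 0 := Finsupp.notMem_support_iff.1 hvW
  have h2 := h.ordDiff_zero v hv
  rw [← hW v, hW0] at h2
  omega

end Finite

section Main

variable [IsAlgClosed K] [CharZero K] [Algebra.IsAlgebraic ℚ K]

/-- **Belyi's theorem** (`{0, 1, ∞}` form) relative to a separating element. -/
theorem exists_belyi_zero_one_of_transcendental {x : F} (hx : Transcendental K x)
    [FiniteDimensional K⟮x⟯ F] :
    ∃ β : F, Transcendental K β ∧ FiniteDimensional K⟮β⟯ F ∧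
      UnramOutside β ({0, 1} : Set K) := by
  have h : RH.FFData K x := FFDataAll.ffData hx
  obtain ⟨S, hS⟩ := exists_finset_unramOutside hx
  obtain ⟨g, hg, hgood⟩ := exists_belyi_poly S
  set p : K[X] := g.map (algebraMap ℚ K) with hp
  have hpdeg : p.natDegree = g.natDegree :=
    natDegree_map_eq_of_injective (algebraMap ℚ K).injective g
  have hp0 : p ≠ 0 := by
    intro h0
    rw [h0, natDegree_zero] at hpdeg
    omega
  have hβ : Transcendental K (aeval x p) :=
    hx.aeval p (by omega) (mem_nonZeroDivisors_of_ne_zero (leadingCoeff_ne_zero.2 hp0))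
  refine ⟨aeval x p, hβ, Kaehler.finiteDimensional_adjoin_of_transcendental x hβ, ?_⟩
  refine hS.map_poly h ?_
  intro c hc
  rw [hp, eval_map_algebraMap]
  apply hgood c
  rcases hc with hc | hc
  · exact Or.inl hc
  · right
    rwa [hp, derivative_map, eval_map_algebraMap] at hc

/-- **Belyi's theorem** (`{0, 16, ∞}` form) relative to a separating element. -/
theorem exists_belyi_of_transcendental {x : F} (hx : Transcendental K x)
    [FiniteDimensional K⟮x⟯ F] :
    ∃ β : F, Transcendental K β ∧ FiniteDimensional K⟮β⟯ F ∧ G2b.IsBelyiUnram K β := by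
  obtain ⟨β, hβ, hfin, hun⟩ := exists_belyi_zero_one_of_transcendental hx
  have h16K : (16 : K) ≠ 0 := by norm_num
  have h16 : (16 : F) = algebraMap K F 16 := by rw [map_ofNat]
  have h16F : algebraMap K F 16 ≠ 0 := (map_ne_zero (algebraMap K F)).2 h16K
  have hβ' : Transcendental K (16 * β) := by
    have h1 : 16 * β = aeval β (C (16 : K) * X) := by
      rw [map_mul, aeval_C, aeval_X, h16]
    rw [h1]
    refine hβ.aeval _ ?_ (mem_nonZeroDivisors_of_ne_zero (leadingCoeff_ne_zero.2 ?_))
    · rw [natDegree_C_mul_X _ h16K]
      exact one_ne_zero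
    · intro h0
      have := congrArg natDegree h0
      rw [natDegree_C_mul_X _ h16K, natDegree_zero] at this
      exact one_ne_zero this
  refine ⟨16 * β, hβ', Kaehler.finiteDimensional_adjoin_of_transcendental β hβ', ?_⟩
  intro v c hc0 hc16 hv
  have hrw : 16 * β - algebraMap K F c = algebraMap K F 16 * (β - algebraMap K F (c / 16)) := by
    rw [h16, mul_sub, ← map_mul, mul_div_cancel₀ c h16K]
  have hne : β - algebraMap K F (c / 16) ≠ 0 := by
    intro h0
    rw [hrw, h0, mul_zero, v.ord_zero] at hv
    exact lt_irrefl _ hv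
  rw [hrw, v.ord_mul h16F hne, ZP.ord_algebraMap, zero_add] at hv ⊢
  refine hun v (c / 16) ?_ hv
  intro hmem
  rcases hmem with hmem | hmem
  · exact hc0 (by rw [div_eq_iff h16K, zero_mul] at hmem; exact hmem)
  · rw [Set.mem_singleton_iff, div_eq_iff h16K, one_mul] at hmem
    exact hc16 hmem

variable [IsCurveOver K F] [Algebra.EssFiniteType K F]

/-- **Belyi's theorem** (`{0, 1, ∞}` form): a function field of one variable over an algebraically
closed field algebraic over `ℚ` is finite over `K(β)`, unramified outside `β ∈ {0, 1, ∞}`. -/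
theorem exists_belyi_zero_one :
    ∃ β : F, Transcendental K β ∧ FiniteDimensional K⟮β⟯ F ∧
      UnramOutside β ({0, 1} : Set K) := by
  obtain ⟨x, hx, hfin, -⟩ := Glue.exists_transcendental_finiteDimensional (K := K) (F := F)
  exact exists_belyi_zero_one_of_transcendental hx

/-- **Belyi's theorem** (`{0, 16, ∞}` form, as consumed by block G2b). -/
theorem exists_belyi :
    ∃ β : F, Transcendental K β ∧ FiniteDimensional K⟮β⟯ F ∧ G2b.IsBelyiUnram K β := by
  obtain ⟨x, hx, hfin, -⟩ := Glue.exists_transcendental_finiteDimensional (K := K) (F := F)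
  exact exists_belyi_of_transcendental hx

end Main

end Fermat.Agent.S27x.Belyi
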