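import Mathlib

/-!
# Belyi's theorem: the polynomial part (P-S27, G2(a), helper66)

`K` a field of characteristic zero, algebraic over `ℚ`.  For every finite set `S ⊆ K` there is a
nonconstant polynomial `g ∈ ℚ[X]` such that `g` maps `S` and all critical points of `g` (in `K`)
into `{0, 1}` (`exists_belyi_poly`).

`Good g S T` says: `g` maps `S` and the critical points of `g` into `T`; it composes
(`Good.comp`).  Step 1 (`exists_good_rat`) makes everything rational by applying minimal polynomials,
Step 2 (`exists_good_zero_one`) reduces the number of rational points with the polynomials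
`c X ^ m (1 - X) ^ k`.
-/

set_option autoImplicit false

open Polynomial

namespace Fermat.Agent.S27x.Belyi

variable {K : Type*} [Field K] [CharZero K]

/-- `g` maps the points of `S` and the critical points of `g` in `K` into `T`. -/
def Good (g : ℚ[X]) (S T : Set K) : Prop :=
  ∀ c : K, (c ∈ S ∨ aeval c (derivative g) = 0) → aeval c g ∈ T

theorem Good.mono {g : ℚ[X]} {S S' T T' : Set K} (h : Good g S T) (hS : S' ⊆ S) (hT : T ⊆ T') :
    Good g S' T' := by
  intro c hc
  apply hT
  apply h c
  rcases hc with hc | hc
  · exact Or.inl (hS hc)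
  · exact Or.inr hc

/-- Composition: if `g₁` is good for `(S, T₁)` and `g₂` is good for `(T₁, T₂)` then `g₂ ∘ g₁` is
good for `(S, T₂)`. -/
theorem Good.comp {g₁ g₂ : ℚ[X]} {S T₁ T₂ : Set K} (h₁ : Good g₁ S T₁) (h₂ : Good g₂ T₁ T₂) :
    Good (g₂.comp g₁) S T₂ := by
  intro c hc
  rw [aeval_comp]
  rcases hc with hc | hc
  · exact h₂ _ (Or.inl (h₁ c (Or.inl hc)))
  · rw [derivative_comp, map_mul, aeval_comp, mul_eq_zero] at hc
    rcases hc with hc | hc
    · exact h₂ _ (Or.inl (h₁ c (Or.inr hc)))
    · exact h₂ _ (Or.inr hc)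

theorem good_X (S : Set K) : Good (X : ℚ[X]) S S := by
  intro c hc
  rw [aeval_X]
  rcases hc with hc | hc
  · exact hc
  · rw [derivative_X, map_one] at hc
    exact absurd hc one_ne_zero

/-! ### Step 1: making the branch set rational -/

section Step1

open IntermediateField

/-- The degree over `ℚ` of an element of `K`. -/
noncomputable def qdeg (c : K) : ℕ := (minpoly ℚ c).natDegree

theorem natDegree_minpoly_aeval_le (f : ℚ[X]) {s : K} (hs : IsIntegral ℚ s) :
    (minpoly ℚ (aeval s f)).natDegree ≤ (minpoly ℚ s).natDegree := by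
  have hfs : IsIntegral ℚ (aeval s f) := IsIntegral.of_mem_of_fg (Algebra.adjoin ℚ {s})
    hs.fg_adjoin_singleton _ (aeval_mem_adjoin_singleton ℚ s)
  rw [← adjoin.finrank hs, ← adjoin.finrank hfs]
  have : FiniteDimensional ℚ ℚ⟮s⟯ := adjoin.finiteDimensional hs
  apply IntermediateField.finrank_le_of_le_right
  rw [adjoin_simple_le_iff]
  exact (algebra_adjoin_le_adjoin ℚ {s}) (aeval_mem_adjoin_singleton ℚ s)

variable [Algebra.IsAlgebraic ℚ K]

theorem isIntegral_rat (c : K) : IsIntegral ℚ c := (Algebra.IsAlgebraic.isAlgebraic c).isIntegral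

theorem qdeg_pos (c : K) : 0 < qdeg c := minpoly.natDegree_pos (isIntegral_rat c)

theorem qdeg_aeval_le (f : ℚ[X]) (c : K) : qdeg (aeval c f) ≤ qdeg c :=
  natDegree_minpoly_aeval_le f (isIntegral_rat c)

omit [Algebra.IsAlgebraic ℚ K] in
theorem qdeg_le_of_root {p : ℚ[X]} (hp : p ≠ 0) {c : K} (h : aeval c p = 0) :
    qdeg c ≤ p.natDegree :=
  natDegree_le_natDegree (minpoly.degree_le_of_ne_zero ℚ c hp h)

theorem mem_range_of_qdeg_le_one {c : K} (h : qdeg c ≤ 1) : c ∈ Set.range (algebraMap ℚ K) := by
  have h1 : qdeg c = 1 := le_antisymm h (qdeg_pos c)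
  exact minpoly.natDegree_eq_one_iff.1 h1

omit [Algebra.IsAlgebraic ℚ K] in
theorem qdeg_zero : qdeg (0 : K) = 1 := by
  rw [qdeg, minpoly.zero, natDegree_X]

theorem exists_good_rat_aux (n : ℕ) : ∀ (k : ℕ) (S : Finset K), (∀ s ∈ S, qdeg s ≤ n) →
    (S.filter (fun s => qdeg s = n)).card ≤ k →
    ∃ g : ℚ[X], 0 < g.natDegree ∧ Good g (S : Set K) (Set.range (algebraMap ℚ K)) := by
  classical
  induction n using Nat.strong_induction_on with
  | _ n ihn =>
    rcases Nat.lt_or_ge n 2 with hn | hn
    · -- all points are rational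
      intro k S hS _
      refine ⟨X, by rw [natDegree_X]; exact one_pos, ?_⟩
      refine (good_X (S : Set K)).mono subset_rfl ?_
      intro s hs
      exact mem_range_of_qdeg_le_one ((hS s hs).trans (by omega))
    · -- no point of degree `n`: pass to `n - 1`
      have hempty : ∀ S : Finset K, (∀ s ∈ S, qdeg s ≤ n) →
          (S.filter (fun s => qdeg s = n)) = ∅ →
          ∃ g : ℚ[X], 0 < g.natDegree ∧ Good g (S : Set K) (Set.range (algebraMap ℚ K)) := by
        intro S hS hE
        refine ihn (n - 1) (by omega) S.card S (fun s hs => ?_) (Finset.card_filter_le _ _)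
        have h1 := hS s hs
        have h2 : qdeg s ≠ n := fun h => by
          have : s ∈ S.filter (fun s => qdeg s = n) := Finset.mem_filter.2 ⟨hs, h⟩
          rw [hE] at this
          exact absurd this (Finset.notMem_empty _)
        omega
      intro k
      induction k with
      | zero =>
        intro S hS hk
        exact hempty S hS (Finset.card_eq_zero.1 (Nat.le_zero.1 hk))
      | succ k ihk =>
        intro S hS hk
        rcases (S.filter (fun s => qdeg s = n)).eq_empty_or_nonempty with hE | ⟨α, hα⟩
        · exact hempty S hS hE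
        · -- apply the minimal polynomial of a point of maximal degree
          obtain ⟨hαS, hαn⟩ := Finset.mem_filter.1 hα
          set f : ℚ[X] := minpoly ℚ α with hf
          have hfn : f.natDegree = n := hαn
          have hf0 : f ≠ 0 := minpoly.ne_zero (isIntegral_rat α)
          have hf'0 : derivative f ≠ 0 := by
            intro h0
            have := Polynomial.derivative_eq_zero.1 h0
            omega
          have hf'deg : (derivative f).natDegree ≤ n - 1 := by
            rw [← hfn]
            exact natDegree_derivative_le f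
          set Z : Finset K := ((derivative f).map (algebraMap ℚ K)).roots.toFinset with hZ
          have hZmem : ∀ c : K, c ∈ Z ↔ aeval c (derivative f) = 0 := by
            intro c
            rw [hZ, Multiset.mem_toFinset, mem_roots', IsRoot.def, eval_map_algebraMap]
            constructor
            · exact fun h => h.2
            · intro h
              exact ⟨(Polynomial.map_ne_zero_iff (algebraMap ℚ K).injective).2 hf'0, h⟩
          set S' : Finset K := S.image (fun s => aeval s f) ∪ Z.image (fun s => aeval s f)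
            with hS'
          have hgoodf : Good f (S : Set K) (S' : Set K) := by
            intro c hc
            rw [hS', Finset.mem_coe, Finset.mem_union, Finset.mem_image, Finset.mem_image]
            rcases hc with hc | hc
            · exact Or.inl ⟨c, hc, rfl⟩
            · exact Or.inr ⟨c, (hZmem c).2 hc, rfl⟩
          have hZdeg : ∀ c ∈ Z, qdeg (aeval c f) ≤ n - 1 := by
            intro c hc
            exact (qdeg_aeval_le f c).trans
              ((qdeg_le_of_root hf'0 ((hZmem c).1 hc)).trans hf'deg)
          have hS'deg : ∀ t ∈ S', qdeg t ≤ n := by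
            intro t ht
            rw [hS', Finset.mem_union, Finset.mem_image, Finset.mem_image] at ht
            rcases ht with ⟨s, hs, rfl⟩ | ⟨c, hc, rfl⟩
            · exact (qdeg_aeval_le f s).trans (hS s hs)
            · exact (hZdeg c hc).trans (Nat.sub_le n 1)
          have hcard : (S'.filter (fun t => qdeg t = n)).card ≤ k := by
            have hsub : S'.filter (fun t => qdeg t = n) ⊆
                ((S.filter (fun s => qdeg s = n)).erase α).image (fun s => aeval s f) := by
              intro t ht
              obtain ⟨ht1, ht2⟩ := Finset.mem_filter.1 ht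
              rw [hS', Finset.mem_union, Finset.mem_image, Finset.mem_image] at ht1
              rcases ht1 with ⟨s, hs, rfl⟩ | ⟨c, hc, rfl⟩
              · refine Finset.mem_image.2 ⟨s, ?_, rfl⟩
                refine Finset.mem_erase.2 ⟨?_, Finset.mem_filter.2 ⟨hs, ?_⟩⟩
                · rintro rfl
                  rw [hf, minpoly.aeval, qdeg_zero] at ht2
                  omega
                · have h1 := qdeg_aeval_le f s
                  have h2 := hS s hs
                  omega
              · have := hZdeg c hc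
                omega
            calc (S'.filter (fun t => qdeg t = n)).card
                ≤ (((S.filter (fun s => qdeg s = n)).erase α).image (fun s => aeval s f)).card :=
                  Finset.card_le_card hsub
              _ ≤ ((S.filter (fun s => qdeg s = n)).erase α).card := Finset.card_image_le
              _ = (S.filter (fun s => qdeg s = n)).card - 1 := Finset.card_erase_of_mem hα
              _ ≤ k := by omega
          obtain ⟨g, hg, hgood⟩ := ihk S' hS'deg hcard
          refine ⟨g.comp f, ?_, hgoodf.comp hgood⟩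
          rw [natDegree_comp, hfn]
          exact Nat.mul_pos hg (by omega)

/-- **Step 1**: every finite subset of `K` is mapped into `ℚ`, together with all critical values,
by a nonconstant polynomial with rational coefficients. -/
theorem exists_good_rat (S : Finset K) :
    ∃ g : ℚ[X], 0 < g.natDegree ∧ Good g (S : Set K) (Set.range (algebraMap ℚ K)) := by
  classical
  exact exists_good_rat_aux (S.sup qdeg) S.card S (fun s hs => Finset.le_sup hs)
    (Finset.card_filter_le _ _)

end Step1

/-! ### Step 2: merging rational points -/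

section Step2

theorem aeval_algebraMap_rat (t : ℚ) (g : ℚ[X]) :
    aeval (algebraMap ℚ K t) g = algebraMap ℚ K (eval t g) := by
  rw [aeval_algebraMap_apply, coe_aeval_eq_eval]

theorem natDegree_pos_of_eval_ne {p : ℚ[X]} {a b : ℚ} (h : eval a p ≠ eval b p) :
    0 < p.natDegree := by
  by_contra h0
  have h1 : p.natDegree = 0 := by omega
  rw [eq_C_of_natDegree_eq_zero h1] at h
  simp at h

/-- the affine map with `a ↦ 0`, `b ↦ 1` -/
noncomputable def affine (a b : ℚ) : ℚ[X] := C (b - a)⁻¹ * (X - C a)

theorem eval_affine (a b t : ℚ) : eval t (affine a b) = (t - a) / (b - a) := by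
  rw [affine, eval_mul, eval_C, eval_sub, eval_X, eval_C, inv_mul_eq_div]

theorem eval_affine_left (a b : ℚ) : eval a (affine a b) = 0 := by
  rw [eval_affine, sub_self, zero_div]

theorem eval_affine_right {a b : ℚ} (h : a ≠ b) : eval b (affine a b) = 1 := by
  rw [eval_affine, div_self (sub_ne_zero.2 h.symm)]

theorem derivative_affine (a b : ℚ) : derivative (affine a b) = C (b - a)⁻¹ := by
  rw [affine, derivative_C_mul, derivative_sub, derivative_X, derivative_C, sub_zero, mul_one]

theorem natDegree_affine_pos {a b : ℚ} (h : a ≠ b) : 0 < (affine a b).natDegree := by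
  apply natDegree_pos_of_eval_ne (a := a) (b := b)
  rw [eval_affine_left, eval_affine_right h]
  exact zero_ne_one

theorem good_affine {a b : ℚ} (h : a ≠ b) {S T : Set K}
    (hS : ∀ s ∈ S, aeval s (affine a b) ∈ T) : Good (affine a b) S T := by
  intro c hc
  rcases hc with hc | hc
  · exact hS c hc
  · exfalso
    rw [derivative_affine, aeval_C] at hc
    have h1 : (b - a)⁻¹ ≠ 0 := inv_ne_zero (sub_ne_zero.2 h.symm)
    exact h1 ((map_eq_zero (algebraMap ℚ K)).1 hc)

/-- Belyi's polynomial `c X ^ (m + 1) (1 - X) ^ (k + 1)`, normalised to have the value `1` at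
`lam`. -/
noncomputable def belyiPoly (m k : ℕ) (lam : ℚ) : ℚ[X] :=
  C (lam ^ (m + 1) * (1 - lam) ^ (k + 1))⁻¹ * (X ^ (m + 1) * (1 - X) ^ (k + 1))

theorem eval_belyiPoly_zero (m k : ℕ) (lam : ℚ) : eval 0 (belyiPoly m k lam) = 0 := by
  simp [belyiPoly]

theorem eval_belyiPoly_one (m k : ℕ) (lam : ℚ) : eval 1 (belyiPoly m k lam) = 0 := by
  simp [belyiPoly]

theorem eval_belyiPoly_self (m k : ℕ) {lam : ℚ} (h0 : lam ≠ 0) (h1 : lam ≠ 1) :
    eval lam (belyiPoly m k lam) = 1 := by
  have hD : lam ^ (m + 1) * (1 - lam) ^ (k + 1) ≠ 0 :=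
    mul_ne_zero (pow_ne_zero _ h0) (pow_ne_zero _ (sub_ne_zero.2 h1.symm))
  simp only [belyiPoly, eval_mul, eval_C, eval_pow, eval_X, eval_sub, eval_one]
  exact inv_mul_cancel₀ hD

theorem derivative_belyiPoly (m k : ℕ) (lam : ℚ) : derivative (belyiPoly m k lam) =
    C (lam ^ (m + 1) * (1 - lam) ^ (k + 1))⁻¹ *
      (X ^ m * (1 - X) ^ k * (C ((m : ℚ) + 1) * (1 - X) - C ((k : ℚ) + 1) * X)) := by
  rw [belyiPoly, derivative_C_mul]
  congr 1
  simp only [derivative_mul, derivative_pow, derivative_X, derivative_sub, derivative_one, zero_sub,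
    mul_one, mul_neg, Nat.add_sub_cancel, Nat.cast_add, Nat.cast_one, map_add, map_one,
    map_natCast]
  ring

theorem crit_belyiPoly (m k : ℕ) {lam : ℚ} (h0 : lam ≠ 0) (h1 : lam ≠ 1)
    (hlam : lam * ((m : ℚ) + 1 + ((k : ℚ) + 1)) = (m : ℚ) + 1) {c : K}
    (hc : aeval c (derivative (belyiPoly m k lam)) = 0) :
    c = 0 ∨ c = 1 ∨ c = algebraMap ℚ K lam := by
  have hD : (lam ^ (m + 1) * (1 - lam) ^ (k + 1))⁻¹ ≠ 0 :=
    inv_ne_zero (mul_ne_zero (pow_ne_zero _ h0) (pow_ne_zero _ (sub_ne_zero.2 h1.symm)))
  rw [derivative_belyiPoly, map_mul, aeval_C, mul_eq_zero] at hc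
  rcases hc with hc | hc
  · exact absurd ((map_eq_zero (algebraMap ℚ K)).1 hc) hD
  · simp only [map_mul, map_pow, map_sub, aeval_X, map_one, map_add, map_natCast,
      mul_eq_zero, pow_eq_zero_iff', sub_eq_zero] at hc
    rcases hc with (hc | hc) | hc
    · exact Or.inl hc.1
    · exact Or.inr (Or.inl hc.1.symm)
    · right; right
      have hK : algebraMap ℚ K lam * ((m : K) + 1 + ((k : K) + 1)) = (m : K) + 1 := by
        have := congrArg (algebraMap ℚ K) hlam
        simpa only [map_mul, map_add, map_natCast, map_one] using this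
      have hne : ((m : K) + 1 + ((k : K) + 1)) ≠ 0 := by
        have : ((m + 1 + (k + 1) : ℕ) : K) ≠ 0 := Nat.cast_ne_zero.2 (by omega)
        simpa only [Nat.cast_add, Nat.cast_one] using this
      have hc' : c * ((m : K) + 1 + ((k : K) + 1)) = (m : K) + 1 := by
        linear_combination -hc
      exact mul_right_cancel₀ hne (hc'.trans hK.symm)

theorem exists_nat_ratio {lam : ℚ} (h0 : 0 < lam) (h1 : lam < 1) :
    ∃ m k : ℕ, lam * ((m : ℚ) + 1 + ((k : ℚ) + 1)) = (m : ℚ) + 1 := by
  obtain ⟨p, hp⟩ : ∃ p : ℕ, (p : ℤ) = lam.num :=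
    ⟨lam.num.toNat, Int.toNat_of_nonneg (Rat.num_nonneg.2 h0.le)⟩
  have hp0 : 0 < p := by
    have := Rat.num_pos.2 h0
    omega
  have hpd : p < lam.den := by
    have := Rat.num_lt_denom_iff.2 h1
    omega
  obtain ⟨m, rfl⟩ : ∃ m, p = m + 1 := Nat.exists_eq_succ_of_ne_zero hp0.ne'
  obtain ⟨k, hk⟩ : ∃ k, lam.den = m + 1 + k + 1 := Nat.exists_eq_add_of_lt hpd
  refine ⟨m, k, ?_⟩
  have h2 : lam * (lam.den : ℚ) = (lam.num : ℚ) := Rat.mul_den_eq_num lam
  rw [hk, ← hp] at h2
  push_cast at h2
  linear_combination h2

theorem good_belyiPoly (m k : ℕ) {lam : ℚ} (h0 : lam ≠ 0) (h1 : lam ≠ 1)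
    (hlam : lam * ((m : ℚ) + 1 + ((k : ℚ) + 1)) = (m : ℚ) + 1) {S T : Set K}
    (hS : ∀ s ∈ S, aeval s (belyiPoly m k lam) ∈ T) (hT0 : (0 : K) ∈ T) (hT1 : (1 : K) ∈ T) :
    Good (belyiPoly m k lam) S T := by
  intro c hc
  rcases hc with hc | hc
  · exact hS c hc
  · rcases crit_belyiPoly m k h0 h1 hlam hc with rfl | rfl | rfl
    · have h := aeval_algebraMap_rat (K := K) 0 (belyiPoly m k lam)
      rw [map_zero, eval_belyiPoly_zero, map_zero] at h
      rw [h]
      exact hT0
    · have h := aeval_algebraMap_rat (K := K) 1 (belyiPoly m k lam)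
      rw [map_one, eval_belyiPoly_one, map_zero] at h
      rw [h]
      exact hT0
    · rw [aeval_algebraMap_rat, eval_belyiPoly_self m k h0 h1, map_one]
      exact hT1

theorem exists_good_zero_one_aux (n : ℕ) : ∀ T : Finset ℚ, T.card ≤ n →
    ∃ g : ℚ[X], 0 < g.natDegree ∧
      Good g (algebraMap ℚ K '' (T : Set ℚ)) ({0, 1} : Set K) := by
  classical
  have hempty : ∃ g : ℚ[X], 0 < g.natDegree ∧
      Good g (algebraMap ℚ K '' ((∅ : Finset ℚ) : Set ℚ)) ({0, 1} : Set K) := by
    refine ⟨affine 0 1, natDegree_affine_pos zero_ne_one, good_affine zero_ne_one ?_⟩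
    intro s hs
    simp at hs
  induction n with
  | zero =>
    intro T hT
    have hT' : T = ∅ := Finset.card_eq_zero.1 (Nat.le_zero.1 hT)
    subst hT'
    exact hempty
  | succ n ih =>
    intro T hT
    rcases T.eq_empty_or_nonempty with rfl | hne
    · exact hempty
    have haT : T.min' hne ∈ T := T.min'_mem hne
    have hcT : T.max' hne ∈ T := T.max'_mem hne
    have hamin : ∀ t ∈ T, T.min' hne ≤ t := fun t ht => Finset.min'_le T t ht
    have hcmax : ∀ t ∈ T, t ≤ T.max' hne := fun t ht => Finset.le_max' T t ht
    generalize T.min' hne = a at haT hamin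
    generalize T.max' hne = c at hcT hcmax
    rcases (hamin c hcT).eq_or_lt with hac | hac
    · -- `T = {a}`
      have ha1 : a ≠ a + 1 := by
        intro h
        linarith
      refine ⟨affine a (a + 1), natDegree_affine_pos ha1, good_affine ha1 ?_⟩
      rintro _ ⟨t, ht, rfl⟩
      have hta : t = a := le_antisymm (hac ▸ hcmax t ht) (hamin t ht)
      rw [aeval_algebraMap_rat, hta, eval_affine_left, map_zero]
      exact Or.inl rfl
    · by_cases hmid : ∃ b ∈ T, b ≠ a ∧ b ≠ c
      · obtain ⟨b, hbT, hba, hbc⟩ := hmid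
        have hab : a < b := lt_of_le_of_ne (hamin b hbT) hba.symm
        have hbc' : b < c := lt_of_le_of_ne (hcmax b hbT) hbc
        obtain ⟨lam, hlamdef⟩ : ∃ lam, lam = eval b (affine a c) := ⟨_, rfl⟩
        have hlam_eq : lam = (b - a) / (c - a) := hlamdef.trans (eval_affine a c b)
        have h0 : 0 < lam := by
          rw [hlam_eq]
          exact div_pos (sub_pos.2 hab) (sub_pos.2 hac)
        have h1 : lam < 1 := by
          rw [hlam_eq, div_lt_one (sub_pos.2 hac)]
          linarith
        obtain ⟨m, k, hmk⟩ := exists_nat_ratio h0 h1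
        have hφa : eval a ((belyiPoly m k lam).comp (affine a c)) = 0 := by
          rw [eval_comp, eval_affine_left, eval_belyiPoly_zero]
        have hφc : eval c ((belyiPoly m k lam).comp (affine a c)) = 0 := by
          rw [eval_comp, eval_affine_right hac.ne, eval_belyiPoly_one]
        have hφb : eval b ((belyiPoly m k lam).comp (affine a c)) = 1 := by
          rw [eval_comp, ← hlamdef, eval_belyiPoly_self m k h0.ne' h1.ne]
        have hcard : (T.image (fun t => eval t ((belyiPoly m k lam).comp (affine a c)))).card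
            ≤ n := by
          have hlt : (T.image (fun t => eval t ((belyiPoly m k lam).comp (affine a c)))).card
              < T.card := by
            refine lt_of_le_of_ne Finset.card_image_le ?_
            intro h
            have hinj := Finset.card_image_iff.1 h
            exact hac.ne (hinj (Finset.mem_coe.2 haT) (Finset.mem_coe.2 hcT) (hφa.trans hφc.symm))
          omega
        obtain ⟨g, hg, hgood⟩ := ih _ hcard
        refine ⟨g.comp ((belyiPoly m k lam).comp (affine a c)), ?_, Good.comp ?_ hgood⟩
        · rw [natDegree_comp, natDegree_comp]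
          refine Nat.mul_pos hg (Nat.mul_pos ?_ (natDegree_affine_pos hac.ne))
          apply natDegree_pos_of_eval_ne (a := 0) (b := lam)
          rw [eval_belyiPoly_zero, eval_belyiPoly_self m k h0.ne' h1.ne]
          exact zero_ne_one
        · refine Good.comp
            (T₁ := algebraMap ℚ K '' ((T.image (fun t => eval t (affine a c)) : Finset ℚ) : Set ℚ))
            (good_affine hac.ne ?_) (good_belyiPoly m k h0.ne' h1.ne hmk ?_ ?_ ?_)
          · rintro _ ⟨t, ht, rfl⟩
            rw [aeval_algebraMap_rat]
            exact ⟨_, Finset.mem_coe.2 (Finset.mem_image_of_mem _ (Finset.mem_coe.1 ht)), rfl⟩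
          · rintro _ ⟨u, hu, rfl⟩
            obtain ⟨t, ht, rfl⟩ := Finset.mem_image.1 (Finset.mem_coe.1 hu)
            rw [aeval_algebraMap_rat]
            refine ⟨_, Finset.mem_coe.2 (Finset.mem_image_of_mem _ ht), ?_⟩
            rw [eval_comp]
          · exact ⟨_, Finset.mem_coe.2 (Finset.mem_image_of_mem _ haT), by rw [hφa, map_zero]⟩
          · exact ⟨_, Finset.mem_coe.2 (Finset.mem_image_of_mem _ hbT), by rw [hφb, map_one]⟩
      · -- `T ⊆ {a, c}`
        refine ⟨affine a c, natDegree_affine_pos hac.ne, good_affine hac.ne ?_⟩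
        rintro _ ⟨t, ht, rfl⟩
        rw [aeval_algebraMap_rat]
        by_cases hta : t = a
        · rw [hta, eval_affine_left, map_zero]
          exact Or.inl rfl
        · have htc : t = c := by
            by_contra htc
            exact hmid ⟨t, Finset.mem_coe.1 ht, hta, htc⟩
          rw [htc, eval_affine_right hac.ne, map_one]
          exact Or.inr rfl

/-- **Step 2**: every finite set of rational points is mapped into `{0, 1}`, together with all
critical values, by a nonconstant polynomial with rational coefficients. -/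
theorem exists_good_zero_one (T : Finset ℚ) :
    ∃ g : ℚ[X], 0 < g.natDegree ∧
      Good g (algebraMap ℚ K '' (T : Set ℚ)) ({0, 1} : Set K) :=
  exists_good_zero_one_aux T.card T le_rfl

end Step2

/-! ### The Belyi polynomial of a finite set -/

section Final

variable [Algebra.IsAlgebraic ℚ K]

omit [Algebra.IsAlgebraic ℚ K] in
/-- A polynomial which is good with values in `ℚ` is good with values in a finite subset of
`ℚ`. -/
theorem Good.exists_finset {g : ℚ[X]} (hg : 0 < g.natDegree) {S : Finset K}
    (h : Good g (S : Set K) (Set.range (algebraMap ℚ K))) :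
    ∃ T : Finset ℚ, Good g (S : Set K) (algebraMap ℚ K '' (T : Set ℚ)) := by
  classical
  have hg' : derivative g ≠ 0 := fun h0 => by
    have := Polynomial.derivative_eq_zero.1 h0
    omega
  set Z : Finset K := ((derivative g).map (algebraMap ℚ K)).roots.toFinset with hZ
  have hZmem : ∀ c : K, c ∈ Z ↔ aeval c (derivative g) = 0 := by
    intro c
    rw [hZ, Multiset.mem_toFinset, mem_roots', IsRoot.def, eval_map_algebraMap]
    constructor
    · exact fun h => h.2
    · intro h
      exact ⟨(Polynomial.map_ne_zero_iff (algebraMap ℚ K).injective).2 hg', h⟩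
  refine ⟨((S ∪ Z).image (fun s => aeval s g)).image (Function.invFun (algebraMap ℚ K)), ?_⟩
  intro c hc
  obtain ⟨q, hq⟩ := h c hc
  refine ⟨q, ?_, hq⟩
  rw [Finset.mem_coe, Finset.mem_image]
  refine ⟨aeval c g, ?_, ?_⟩
  · refine Finset.mem_image.2 ⟨c, ?_, rfl⟩
    rcases hc with hc | hc
    · exact Finset.mem_union_left _ (Finset.mem_coe.1 hc)
    · exact Finset.mem_union_right _ ((hZmem c).2 hc)
  · rw [← hq]
    exact Function.leftInverse_invFun (algebraMap ℚ K).injective q

/-- **Belyi's polynomial**: for every finite subset `S` of a field `K` algebraic over `ℚ` there is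
a nonconstant `g ∈ ℚ[X]` mapping `S` and all critical points of `g` in `K` into `{0, 1}`. -/
theorem exists_belyi_poly (S : Finset K) :
    ∃ g : ℚ[X], 0 < g.natDegree ∧ Good g (S : Set K) ({0, 1} : Set K) := by
  obtain ⟨g₁, hg₁, hgood₁⟩ := exists_good_rat S
  obtain ⟨T, hT⟩ := hgood₁.exists_finset hg₁
  obtain ⟨g₂, hg₂, hgood₂⟩ := exists_good_zero_one (K := K) T
  refine ⟨g₂.comp g₁, ?_, hT.comp hgood₂⟩
  rw [natDegree_comp]
  exact Nat.mul_pos hg₂ hg₁

end Final

end Fermat.Agent.S27x.Belyi
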